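import Fermat.Agent.S55.E1.Defs
import Fermat.Agent.S55.L.D1H301

/-!
# S55 / engine E1 : class modules at `p` — general adapters (helper175)

* `isClassModuleAt_of_isClassModule` : a class module in the sense of layer T (`T.IsClassModule`)
  is a class module at `p` in the sense of the engine (`E1.IsClassModuleAt p`), for every `p`.
* `subIso` : transport of the cohomology of subgroups along an isomorphism of pairs
  (group, module).
* `exists_isClassModuleAt_of_equiv` : if `(G', C')` satisfies the class-module conditions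
  (`H¹(H', C') = 0`, `H²(H', C') ≃ ℤ/|H'|` for all subgroups `H'`) and `(G, C) ≃ (G', C')`, then
  `C` has a fundamental class at every `p`.
-/

set_option autoImplicit false

namespace Fermat.Agent.S55.E1.H175

open CategoryTheory groupCohomology

section General

/-- Pure group theory: a group generated by `a` with annihilator exactly `m ℤ` has `m` elements
and every element is a natural multiple of `a`. -/
theorem card_eq_and_gen_of_cyclic {M : Type*} [AddCommGroup M] (m : ℕ) (hm : 0 < m) (a : M)
    (h2 : ∀ x : M, ∃ c : ℤ, x = c • a)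
    (h3 : ∀ c : ℤ, c • a = 0 → ∃ d : ℤ, c = (m : ℤ) * d)
    (h4 : (m : ℤ) • a = 0) :
    Nat.card M = m ∧ ∀ x : M, ∃ n : ℕ, x = n • a := by
  have hgen : ∀ x : M, ∃ n : ℕ, x = n • a := by
    intro x
    obtain ⟨c, hc⟩ := h2 x
    refine ⟨(c % (m : ℤ)).toNat, ?_⟩
    have hnn : 0 ≤ c % (m : ℤ) := Int.emod_nonneg _ (by exact_mod_cast hm.ne')
    have hsplit : c = (m : ℤ) * (c / (m : ℤ)) + c % (m : ℤ) :=
      (Int.mul_ediv_add_emod c _).symm
    have h4' : ((m : ℤ) * (c / (m : ℤ))) • a = 0 := by
      rw [mul_comm, mul_smul, h4, smul_zero]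
    have h5 : c • a = (c % (m : ℤ)) • a := by
      conv_lhs => rw [hsplit, add_smul, h4', zero_add]
    have h6 : ((c % (m : ℤ)).toNat : ℤ) = c % (m : ℤ) := Int.toNat_of_nonneg hnn
    rw [hc, h5]
    conv_lhs => rw [← h6]
    exact natCast_zsmul a _
  refine ⟨?_, hgen⟩
  have htop : AddSubgroup.zmultiples a = ⊤ := by
    rw [eq_top_iff]
    intro x _
    obtain ⟨n, hn⟩ := hgen x
    rw [AddSubgroup.mem_zmultiples_iff]
    exact ⟨n, by rw [hn]; exact natCast_zsmul a n⟩
  have hord : addOrderOf a = m := by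
    apply Nat.dvd_antisymm
    · apply addOrderOf_dvd_of_nsmul_eq_zero
      rw [← natCast_zsmul]
      exact h4
    · have h0 : ((addOrderOf a : ℕ) : ℤ) • a = 0 := by
        rw [natCast_zsmul]
        exact addOrderOf_nsmul_eq_zero a
      obtain ⟨d, hd⟩ := h3 _ h0
      exact Int.natCast_dvd_natCast.1 ⟨d, hd⟩
  calc Nat.card M
      = Nat.card (⊤ : AddSubgroup M) :=
        (Nat.card_congr (AddSubgroup.topEquiv (G := M)).toEquiv).symm
    _ = Nat.card (AddSubgroup.zmultiples a) := by rw [htop]
    _ = addOrderOf a := Nat.card_zmultiples a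
    _ = m := hord

variable {G : Type} [Group G] [Finite G] (C : Rep.{0} ℤ G)

/-- A `T`-class module is a class module at `p` (for every `p`). -/
theorem isClassModuleAt_of_isClassModule (p : ℕ) (γ : groupCohomology C 2)
    (h : T.IsClassModule C γ) : E1.IsClassModuleAt p C γ := by
  intro H _
  obtain ⟨h1, h2, h3, h4⟩ := h H
  have hpos : 0 < Nat.card H := Nat.card_pos
  obtain ⟨hcard, hgen⟩ := card_eq_and_gen_of_cyclic (Nat.card H) hpos
    ((T.resMap C H 2).hom γ)
    (fun x => by
      obtain ⟨c, hc⟩ := h2 x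
      exact ⟨c, hc.trans (int_smul_eq_zsmul _ c _)⟩)
    (fun c hc => h3 c ((int_smul_eq_zsmul _ c _).trans hc))
    ((int_smul_eq_zsmul _ _ _).symm.trans h4)
  exact ⟨h1, hcard, hgen⟩

end General

section Transport

variable {G G' : Type} [Group G] [Group G'] (e : G ≃* G')
  (C : Rep.{0} ℤ G) (C' : Rep.{0} ℤ G') (φ : C.V ≃+ C'.V)

/-- An additive equivalence between the underlying groups of two representations over `ℤ` is
`ℤ`-linear (for the module structures carried by the representations). -/
noncomputable def linOfAdd {G₁ G₂ : Type} [Group G₁] [Group G₂] (A : Rep.{0} ℤ G₁)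
    (B : Rep.{0} ℤ G₂) (ψ : A.V ≃+ B.V) :
    @LinearEquiv ℤ ℤ _ _ (RingHom.id ℤ) (RingHom.id ℤ) _ _ A.V B.V _ _ A.hV2 B.hV2 :=
  letI := A.hV2
  letI := B.hV2
  { toFun := ψ
    invFun := ψ.symm
    left_inv := ψ.left_inv
    right_inv := ψ.right_inv
    map_add' := ψ.map_add
    map_smul' := fun c x => by
      rw [RingHom.id_apply]
      exact ((congrArg ψ (int_smul_eq_zsmul A.hV2 c x)).trans (map_zsmul ψ c x)).trans
        (int_smul_eq_zsmul B.hV2 c (ψ x)).symm }

theorem linOfAdd_apply {G₁ G₂ : Type} [Group G₁] [Group G₂] (A : Rep.{0} ℤ G₁)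
    (B : Rep.{0} ℤ G₂) (ψ : A.V ≃+ B.V) (x : A.V) : linOfAdd A B ψ x = ψ x := rfl

/-- Transport of the cohomology of a subgroup along an isomorphism of pairs (group, module):
`Hⁿ(H, C) ≅ Hⁿ(e H, C')`. -/
noncomputable def subIso (hφ : ∀ g x, φ (C.ρ g x) = C'.ρ (e g) (φ x)) (H : Subgroup G) (n : ℕ) :
    groupCohomology (T.resSub C H) n ≅
      groupCohomology (T.resSub C' (H.map e.toMonoidHom)) n :=
  groupCohomology.mapIso (A := T.resSub C' (H.map e.toMonoidHom)) (B := T.resSub C H)
    (e.subgroupMap H) (linOfAdd (T.resSub C H) (T.resSub C' (H.map e.toMonoidHom)) φ)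
    (fun g => DFunLike.ext _ _ fun x => hφ (g : G) x) n

theorem card_map_equiv (H : Subgroup G) : Nat.card (H.map e.toMonoidHom) = Nat.card H :=
  (Nat.card_congr (e.subgroupMap H).toEquiv).symm

variable [Finite G]

/-- If `(G', C')` satisfies the class-module conditions of layer L (all subgroups), then so does
any isomorphic pair `(G, C)`, and `C` has a fundamental class. -/
theorem exists_isClassModule_of_equiv (hφ : ∀ g x, φ (C.ρ g x) = C'.ρ (e g) (φ x))
    (h : ∀ H' : Subgroup G', Subsingleton (groupCohomology (T.resSub C' H') 1) ∧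
      Nonempty (groupCohomology (T.resSub C' H') 2 ≃+ ZMod (Nat.card H'))) :
    ∃ γ : groupCohomology C 2, T.IsClassModule C γ := by
  apply Fermat.Agent.S55.L.exists_isClassModule_h301 C
  · intro H
    have := (h (H.map e.toMonoidHom)).1
    exact (subIso e C C' φ hφ H 1).toLinearEquiv.toEquiv.subsingleton
  · intro H
    obtain ⟨f⟩ := (h (H.map e.toMonoidHom)).2
    rw [card_map_equiv] at f
    exact ⟨(subIso e C C' φ hφ H 2).toLinearEquiv.toAddEquiv.trans f⟩

/-- The same, as a class module at `p`. -/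
theorem exists_isClassModuleAt_of_equiv (p : ℕ)
    (hφ : ∀ g x, φ (C.ρ g x) = C'.ρ (e g) (φ x))
    (h : ∀ H' : Subgroup G', Subsingleton (groupCohomology (T.resSub C' H') 1) ∧
      Nonempty (groupCohomology (T.resSub C' H') 2 ≃+ ZMod (Nat.card H'))) :
    ∃ γ : groupCohomology C 2, E1.IsClassModuleAt p C γ := by
  obtain ⟨γ, hγ⟩ := exists_isClassModule_of_equiv e C C' φ hφ h
  exact ⟨γ, isClassModuleAt_of_isClassModule C p γ hγ⟩

end Transport

end Fermat.Agent.S55.E1.H175
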