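import Fermat.Agent.S55.E1.H175.ClassModuleAt
import Fermat.Agent.S55.Bridge.H175.TowerDict
import Fermat.Agent.S55.L.Adapter
import Fermat.Agent.S55.L.Inst63
import Fermat.Agent.S55.Local.H964.T5Closed
import Fermat.Agent.S55.Spec.Datum

/-!
# S55 / engine E1 : GD2 = first conjunct of `Tow.LocalSpec p` (helper175)

For every level `F` (finite Galois over `ℚ`) and every prime `q`, the module `F_qˣ = L.locUnits q`
of the decomposition group `Gal(F_q/ℚ_q) = L.Dec q` of the tower is a class module
(`T.IsClassModule`), hence a class module at `p` for every `p` (`E1.IsClassModuleAt p`).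

* `exists_isClassModule_locUnits_of` : from `L.ClassModuleSpec`;
* `exists_isClassModule_locUnits`    : unconditional (layer L core is closed on main);
* `gd2` : the first conjunct of `Tow.LocalSpec p`, unconditional;
* `localSpec_of` : `Tow.LocalSpec p` from its second and third conjuncts.
-/

set_option autoImplicit false
set_option linter.style.haveILetI false

namespace Fermat.Agent.S55.E1.H175

open CategoryTheory groupCohomology ExtCitation Fermat.Agent.S55.Bridge.H175

variable {S : Finset Nat.Primes} (Lv : Tow.Level S) (q : Nat.Primes)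

/-- `(Gal(F_q/ℚ_q), F_qˣ)` of the tower is a class module, from the class-module statement of
layer L. -/
theorem exists_isClassModule_locUnits_of (hCM : L.ClassModuleSpec) :
    ∃ γ : groupCohomology (Lv.locUnits q) 2, T.IsClassModule (Lv.locUnits q) γ := by
  letI : Fact (q : ℕ).Prime := ⟨q.2⟩
  haveI := level_finiteDimensional Lv
  haveI := level_normal Lv
  haveI : FiniteDimensional ℚ_[(q : ℕ)] (primeLocalLevel q Lv.F) :=
    finiteDimensional_primeLocalLevel q Lv.F
  haveI : IsGalois ℚ_[(q : ℕ)] (primeLocalLevel q Lv.F) := isGalois_primeLocalLevel q Lv.F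
  haveI : L.IsLocalFld ℚ_[(q : ℕ)] := L.padicInst63 (q : ℕ)
  exact exists_isClassModule_of_equiv (decEquiv Lv q) (Lv.locUnits q)
    (L.unitsRep ℚ_[(q : ℕ)] (primeLocalLevel q Lv.F)) (locUnitsEquiv Lv q)
    (locUnitsEquiv_ρ Lv q) (fun H' => hCM ℚ_[(q : ℕ)] (primeLocalLevel q Lv.F) H')

/-- The class-module statement of layer L (closed on main). -/
theorem classModuleSpec : L.ClassModuleSpec :=
  L.classModule_of_local' Local.H964.h2Cyclic

/-- `(Gal(F_q/ℚ_q), F_qˣ)` of the tower is a class module (unconditional). -/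
theorem exists_isClassModule_locUnits :
    ∃ γ : groupCohomology (Lv.locUnits q) 2, T.IsClassModule (Lv.locUnits q) γ :=
  exists_isClassModule_locUnits_of Lv q classModuleSpec

/-- **GD2** (first conjunct of `Tow.LocalSpec p`): `F_qˣ` is a class module at `p`. -/
theorem gd2 (p : ℕ) (S' : Finset Nat.Primes) (Lv : Tow.Level S') (q : Nat.Primes) :
    ∃ γ : groupCohomology (Lv.locUnits q) 2, E1.IsClassModuleAt p (Lv.locUnits q) γ := by
  obtain ⟨γ, hγ⟩ := exists_isClassModule_locUnits Lv q
  exact ⟨γ, isClassModuleAt_of_isClassModule _ p γ hγ⟩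

/-- `Tow.LocalSpec p` from its second (LH90) and third (LDIV) conjuncts. -/
theorem localSpec_of (p : ℕ)
    (h90 : ∀ (S' : Finset Nat.Primes) (Lv Lv' : Tow.Level S') (h : Lv ≤ Lv') (q : Nat.Primes),
      Limits.IsZero (groupCohomology (T.resSub (Lv'.locUnits q) (Tow.Level.projDec h q).ker) 1))
    (hdiv : ∀ (S' : Finset Nat.Primes) (Lv : Tow.Level S') (q : Nat.Primes)
      (x : (Lv.locUnits q).V),
      ∃ (S'' : Finset Nat.Primes) (hS : S' ⊆ S'') (Lv' : Tow.Level S'')
        (h : Tow.Level.ofLE hS Lv ≤ Lv') (y : (Lv'.locUnits q).V),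
        p • y = (Tow.Level.trLoc h q).hom x) :
    Tow.LocalSpec p :=
  ⟨gd2 p, h90, hdiv⟩

/-- Hilbert 90 for every subgroup of the decomposition group of the tower. -/
theorem isZero_H1_locUnits (H : Subgroup (Lv.Dec q)) :
    Limits.IsZero (groupCohomology (T.resSub (Lv.locUnits q) H) 1) := by
  obtain ⟨γ, hγ⟩ := exists_isClassModule_locUnits Lv q
  exact (hγ H).1

/-- **LH90** (second conjunct of `Tow.LocalSpec p`). -/
theorem lh90 (S' : Finset Nat.Primes) (Lv Lv' : Tow.Level S') (h : Lv ≤ Lv') (q : Nat.Primes) :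
    Limits.IsZero (groupCohomology (T.resSub (Lv'.locUnits q) (Tow.Level.projDec h q).ker) 1) :=
  isZero_H1_locUnits Lv' q _

end Fermat.Agent.S55.E1.H175
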