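import Fermat.Agent.S55.E1.H175.GD2
import Fermat.Agent.S55.Bridge.LocalDiv

/-!
# S55 / engine E1 : `Tow.LocalSpec p` — the TARGET OF LAYER L, unconditional (helper175)

`localSpec p hp : Tow.LocalSpec p` for every `p > 0`, assembled from
* GD2  (`gd2`, this directory: tower dictionary + class module of layer L, closed on main),
* LH90 (`lh90`, this directory),
* LDIV (`Bridge.localSpec_ldiv`, helper655).
-/

set_option autoImplicit false

namespace Fermat.Agent.S55.E1.H175

/-- **TARGET OF LAYER L** for the engine E1: `Tow.LocalSpec p`, unconditional. -/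
theorem localSpec (p : ℕ) (hp : 0 < p) : Tow.LocalSpec p :=
  localSpec_of p lh90 (Fermat.Agent.S55.Bridge.localSpec_ldiv p hp)

end Fermat.Agent.S55.E1.H175
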